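import Fermat.Agent.S36.Mod3.Spec
import Fermat.Agent.S36.H160.AuxPull
import Fermat.Agent.S37.H155.Pull
import Fermat.Agent.S35.H155.B2
import Fermat.Agent.A2.T1.H669.Embed
import Fermat.Agent.S59.H885.LoSqSpec

/-!
# S59 moonshot, cell (C) = LO-SQ: frozen interfaces of the NEAT WALL (cell architect helper885)

Board: `coord/S59-LO-C.md` on `origin/helper885`.  OFF-MAIN.  Definitions only (no `sorry`).

Levels as in row S36: `q ∤ M`, `N = M q` (`q ∥ N`), top level `N q = M q q`.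
`F' = F_E(M q)`, `F = F_E(M q q)`, `α = αE`, `β = βE : F' → F`; the objects `V₁' V₂'` (level `M q`),
`V₁ V₂ V₃` (level `M q q`, multiplicities `1, q - 1, 1`) are those of `S36.Mod3.Objs`.

## The chain (top to bottom)

    LoSqNeatStatement      W-form at neat levels                      (consumer: helper826 SqFree35)
      ⇑ glue (helper885: `loSq_of_core` replayed)
    CoreSqNeatStatement    J-form, `q ∥ N`, neat: nonzero `I`-fixed non-Eisenstein eigenclass of
                           `J₀(N q)[p]`  ⟹  the eigensystem occurs in `J₀(N)[p]`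
      ⇑ TOP-CORE (helper301): W0 (`pushA`/`pushB` ≠ 0) + ALG (`H296.exists_eigen_of_add_eigen`)
    NewOldStatement        J-form: a `q`-new `I`-fixed class of `J₀(M q q)[p]`
                           (non-Eisenstein eigen if `p ∣ q + 1`) is `α^* y + β^* y'`
      ⇑ W-DESC (helper876)                      ⇑ W-SLOPE (helper276), only `p ∣ q + 1`
    LevelWallStatement     E-form               SlopeJStatement
      ⇑ glue (`Skel.lean`, helper885)
    NewUnitsStatement  (ABSTRACT, `TripleCtx`; W-NEW, helper987 / helper117)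
    LeafCtx            (`TripleCtx` for ALL `Mod3.Objs`; assembly of the MOD3 leaves on main)
    LeafRealize        (THE MOUNTAIN: every `u` with `p ∣ div u`, unit at `V₁ V₂ V₃`, comes from
                        level `M q`:  `u = c · α g · β g' · h ^ p`, `p ∣ div g`, `p ∣ div g'`)

`LeafRealize` = W-COUNT (level `M q`: reductions and labels are ONTO; TAME-CYC, NODE-REL, GUB,
count for all `p ^ n`) + W-PULL (reductions / labels of `α g`, `β g'`) + W-SUB (labels at the
triple points are injective = wall `H193.exists_pow_eq_of_three`).  Its internal interfaces are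
frozen by the sub-architects (see the board).

Why `LeafRealize` needs no "new": the semiabelian part of the Néron model of `J₀(M q q)` over
`ℤ_q^{ur}` is the image of `J₀(M q)²`; the `q²`-new part is unipotent; "new" is only used to kill
the slope (component group), `NewUnitsStatement`.
-/

set_option autoImplicit false
set_option linter.style.haveILetI false
set_option linter.unusedSectionVars false
set_option synthInstance.maxHeartbeats 400000
set_option maxHeartbeats 1600000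

noncomputable section

namespace Fermat.Agent.S59.LoSqC

open ModularCurve AlgebraicCurve
open Fermat.Agent.S36 Fermat.Agent.S36.Eng
open Fermat.Agent.Ribet.Spec Fermat.Agent.Ribet.H944.Wall

/-! ## E-form vocabulary (generic, Mathlib + `normAlong`) -/

section Vocab

variable {R E F F' : Type*} [CommRing R] [Field E] [Algebra R E]
  [Field F] [Algebra E F] [Algebra R F] [Field F'] [Algebra E F'] [Algebra R F']

/-- `f = c · G ^ m · u`, `c` a nonzero constant, `u` a unit of `V₁`, `V₂`, `V₃`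
("all slopes of `f` vanish mod `m`"). -/
def UnitsForm (E : Type*) [Field E] {F : Type*} [Field F] [Algebra E F] (m : ℕ)
    (V₁ V₂ V₃ : ValuationSubring F) (f : F) : Prop :=
  ∃ (c : E) (G : F), c ≠ 0 ∧ G ≠ 0 ∧
    UnitAt V₁ (f * (algebraMap E F c * G ^ m)⁻¹) ∧
    UnitAt V₂ (f * (algebraMap E F c * G ^ m)⁻¹) ∧
    UnitAt V₃ (f * (algebraMap E F c * G ^ m)⁻¹)

/-- The slope of `f` vanishes mod `m`:  `v₁ f ≡ v₃ f mod m` (`w` is a uniformiser of `V₁` and of
`V₃`). -/
def SlopeZero (w : R) (m : ℕ) (V₁ V₃ : ValuationSubring F) (f : F) : Prop :=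
  ∃ a₁ a₃ : ℤ, UnitAt V₁ (f * (algebraMap R F w ^ a₁)⁻¹) ∧
    UnitAt V₃ (f * (algebraMap R F w ^ a₃)⁻¹) ∧ (m : ℤ) ∣ a₁ - a₃

/-- `u` comes from the lower level:  `u = c · α g · β g' · h ^ m` with `m ∣ div g`, `m ∣ div g'`. -/
def FromBelow (E : Type*) [Field E] {F F' : Type*} [Field F] [Algebra E F] [Field F']
    [Algebra E F'] (m : ℕ) (α β : F' →ₐ[E] F) (u : F) : Prop :=
  ∃ (c : E) (g g' : F') (h : F), g ≠ 0 ∧ g' ≠ 0 ∧ h ≠ 0 ∧
    A2.DivisibleDiv E m g ∧ A2.DivisibleDiv E m g' ∧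
    u = algebraMap E F c * α g * β g' * h ^ m

/-- **REALIZE** for the context `(α, β, V₁, V₂, V₃)` and the exponent `m`. -/
def RealizeAt (E : Type*) [Field E] {F F' : Type*} [Field F] [Algebra E F] [Field F']
    [Algebra E F'] (m : ℕ) (α β : F' →ₐ[E] F) (V₁ V₂ V₃ : ValuationSubring F) : Prop :=
  ∀ u : F, u ≠ 0 → A2.DivisibleDiv E m u → UnitAt V₁ u → UnitAt V₂ u → UnitAt V₃ u →
    FromBelow E m α β u

end Vocab

/-! ## The abstract leaf -/

/-- **NEW-UNITS (abstract leaf; W-NEW).**  In a three-component context, for `m` prime to `q`: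
if the norms of `f ≠ 0` along `α` and `β` are constants times `m`-th powers, and the slope of `f`
vanishes mod `m` (automatic when `gcd (m, q + 1) = 1`), then `f = c · G ^ m · u` with `u` a unit
at `V₁, V₂, V₃`.

Proof: `(a₁, a₂, a₃)` = orders of `f` at `(V₁ | w, V₂ | t, V₃ | w)`; `nv_α`, `nv_β` give
`a₁ + a₂ ≡ q a₃`, `a₃ + a₂ ≡ q a₁ mod m`, so `(q + 1)(a₁ - a₃) ≡ 0` and, when `m ∣ a₁ - a₃`,
`(a₁, a₂, a₃) ≡ a₃ (1, q - 1, 1)`; `c = w ^ a₃`, `G` by approximation
(`H586.exists_approx_ord3`). -/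
def NewUnitsStatement : Prop :=
  ∀ {R E F F' : Type} [CommRing R] [IsDomain R] [IsDiscreteValuationRing R]
    [HenselianLocalRing R] [IsAlgClosed (IsLocalRing.ResidueField R)]
    [Field E] [CharZero E] [Algebra R E] [IsFractionRing R E]
    [Field F] [Algebra E F] [Algebra R F] [IsScalarTower R E F]
    [Field F'] [Algebra E F'] [Algebra R F'] [IsScalarTower R E F']
    (w : R) (_ : Irreducible w) (q : ℕ) (_ : q.Prime)
    (_ : (q : R) ∈ IsLocalRing.maximalIdeal R)
    (α β : F' →ₐ[E] F) (x : F) (x' : F')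
    (V₁ V₂ V₃ : ValuationSubring F) (V₁' V₂' : ValuationSubring F')
    (_ : TripleCtx w q α β x x' V₁ V₂ V₃ V₁' V₂'),
    ∀ m : ℕ, 0 < m → ¬ q ∣ m →
      ∀ f : F, f ≠ 0 → S35.G.NormPow α m f → S35.G.NormPow β m f →
        (¬ Nat.Coprime m (q + 1) → SlopeZero w m V₁ V₃ f) →
        UnitsForm E m V₁ V₂ V₃ f

/-! ## The modular leaves (E-form; binder prefix `Mod3.Leaf`) -/

/-- **CTX (leaf).**  EVERY system of objects carries the three-component context
(assembly of the MOD3 leaves on main, which are stated for all `Mod3.Objs`). -/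
def LeafCtx : Prop :=
  Mod3.Leaf fun P E M q _ _ _ w V₁' V₂' V₁ V₂ V₃ =>
    TripleCtx (R := A2.RE P E) (E := E) w q (A2.Mod.αE E (M * q) q) (A2.Mod.βE E (M * q) q)
      (Mod3.x3E E M q) (A2.Mod.xE E M q) V₁ V₂ V₃ V₁' V₂'

/-- **REALIZE (leaf; W-COUNT + W-PULL + W-SUB).**  `q` odd, `p` odd, `p ≠ q`, neat level. -/
def LeafRealize : Prop :=
  Mod3.Leaf fun _ E M q _ _ _ _ _ _ V₁ V₂ V₃ =>
    q ≠ 2 → ∀ p : ℕ, p.Prime → p ≠ 2 → p ≠ q →
      RealizeAt E p (A2.Mod.αE E (M * q) q) (A2.Mod.βE E (M * q) q) V₁ V₂ V₃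

/-- The body of the level wall at one system of objects. -/
def LevelWallBody {R : Type*} [CommRing R] (E : IntermediateField ℚ A2.Qb) (M q p : ℕ)
    [NeZero M] [NeZero q] [NeZero (M * q)] [Algebra R (A2.Mod.FE E (M * q * q))] (w : R)
    (V₁ V₃ : ValuationSubring (A2.Mod.FE E (M * q * q))) : Prop :=
  ∀ f : A2.Mod.FE E (M * q * q), f ≠ 0 → A2.DivisibleDiv E p f →
    S35.G.NormPow (A2.Mod.αE E (M * q) q) p f → S35.G.NormPow (A2.Mod.βE E (M * q) q) p f →
    (p ∣ q + 1 → SlopeZero w p V₁ V₃ f) →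
    FromBelow E p (A2.Mod.αE E (M * q) q) (A2.Mod.βE E (M * q) q) f

/-- **The level wall at `(P, E, M, q, p)`** (E-form of NEW-OLD): for every uniformiser and every
system of objects. -/
def LevelWallAt (P : ValuationSubring A2.Qb) (E : IntermediateField ℚ A2.Qb) (M q p : ℕ)
    [NeZero M] [NeZero q] [NeZero (M * q)] : Prop :=
  ∀ w : A2.RE P E, Irreducible w →
    ∀ (V₁' V₂' : ValuationSubring (A2.Mod.FE E (M * q)))
      (V₁ V₂ V₃ : ValuationSubring (A2.Mod.FE E (M * q * q)))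
      (W' : A2.Mod.FE E (M * q) ≃ₐ[E] A2.Mod.FE E (M * q))
      (W : A2.Mod.FE E (M * q * q) ≃ₐ[E] A2.Mod.FE E (M * q * q)),
      Mod3.Objs P E M q V₁' V₂' V₁ V₂ V₃ W' W →
      LevelWallBody (R := A2.RE P E) E M q p w V₁ V₃

/-- **The level wall (interface statement).** -/
def LevelWallStatement : Prop :=
  ∀ (P : ValuationSubring A2.Qb) (E : IntermediateField ℚ A2.Qb) (M q p : ℕ)
    [NeZero M] [NeZero q] [NeZero (M * q)],
    q.Prime → ¬ q ∣ M → P.LiesOverPrime q → Unramified P E q → NeatFor M q → q ≠ 2 →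
    p.Prime → p ≠ 2 → p ≠ q → LevelWallAt P E M q p

/-! ## J-form -/

/-- The inertia field `ℚ̄^{I_P}` (`= S36.Eng.inertiaFld P`, definitionally). -/
abbrev inertiaFldC (P : ValuationSubring A2.Qb) : IntermediateField ℚ A2.Qb :=
  IntermediateField.fixedField (P.inertiaSubgroupIn ℚ)

section JForm

variable (M q : ℕ) [NeZero M] [NeZero q] [NeZero (M * q)]

/-- `α^* : J₀(M q) → J₀(M q q)`. -/
abbrev pullUpA : JZero (M * q) →+ JZero (M * q * q) := S37.H155.pullHom (M * q) q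

/-- `β^* : J₀(M q) → J₀(M q q)`. -/
abbrev pullUpB : JZero (M * q) →+ JZero (M * q * q) := S36.H160.pullB (M * q) q

/-- `f ∈ F_E(N)` is an `E`-rational Kummer generator of `x ∈ J₀(N)`: `x = [D]`, `div f = p D`. -/
def IsKummerGenE (E : IntermediateField ℚ A2.Qb) (N p : ℕ) [NeZero N] (f : A2.Mod.FE E N)
    (x : JZero N) : Prop :=
  f ≠ 0 ∧ ∃ D : Divisor.degZero (K := A2.Qb) (F := modularFunctionFieldBar N),
    Pic0.mk D = x ∧
    ∀ v : Place A2.Qb (modularFunctionFieldBar N),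
      v.ord (A2.T1.H669.iota E (modularFunctionFieldFull N) f)
        = (p : ℤ) * (D : Divisor A2.Qb (modularFunctionFieldBar N)) v

/-- **NEW-OLD at one neat level** (J-form). -/
def NewOldAt (p : ℕ) (A : ValuationSubring A2.Qb) : Prop :=
  ∀ x : JZero (M * q * q), p • x = 0 → S35.H155.IsQNew (M * q) q x →
    (∀ τ ∈ A.inertiaSubgroupIn ℚ, τ • x = x) →
    (p ∣ q + 1 → ∃ (S : Finset ℕ) (a : ℕ → ℤ), NonEisAway p a ∧ EigenAt (M * q * q) S a x) →
    ∃ y y' : JZero (M * q), p • y = 0 ∧ p • y' = 0 ∧ x = pullUpA M q y + pullUpB M q y'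

/-- **W-SLOPE at one neat level** (J-form): the slope of an `E`-rational Kummer generator of a
non-Eisenstein eigenclass vanishes mod `p` (`E` = inertia field of `A`).
(`s(T_ℓ x) = (ℓ + 1) s(x)`: every `V_i` has ONE extension to level `M q q ℓ` along `α_ℓ` and
`β_ℓ`, with `e = 1`, `f = ℓ + 1`.) -/
def SlopeJAt (p : ℕ) (A : ValuationSubring A2.Qb) : Prop :=
  ∀ x : JZero (M * q * q), p • x = 0 →
    ∀ (S : Finset ℕ) (a : ℕ → ℤ), NonEisAway p a → EigenAt (M * q * q) S a x →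
    ∀ w : A2.RE A (inertiaFldC A), Irreducible w →
    ∀ (V₁' V₂' : ValuationSubring (A2.Mod.FE (inertiaFldC A) (M * q)))
      (V₁ V₂ V₃ : ValuationSubring (A2.Mod.FE (inertiaFldC A) (M * q * q)))
      (W' : A2.Mod.FE (inertiaFldC A) (M * q) ≃ₐ[inertiaFldC A] A2.Mod.FE (inertiaFldC A) (M * q))
      (W : A2.Mod.FE (inertiaFldC A) (M * q * q) ≃ₐ[inertiaFldC A]
        A2.Mod.FE (inertiaFldC A) (M * q * q)),
      Mod3.Objs A (inertiaFldC A) M q V₁' V₂' V₁ V₂ V₃ W' W →
      ∀ f : A2.Mod.FE (inertiaFldC A) (M * q * q),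
        IsKummerGenE (inertiaFldC A) (M * q * q) p f x →
        SlopeZero (R := A2.RE A (inertiaFldC A)) w p V₁ V₃ f

end JForm

/-- **W-SLOPE (leaf)**, only used when `p ∣ q + 1`. -/
def SlopeJStatement : Prop :=
  ∀ (M q p : ℕ) [NeZero M] [NeZero q] [NeZero (M * q)], q.Prime → ¬ q ∣ M → NeatFor M q →
    q ≠ 2 → p.Prime → p ≠ 2 → p ≠ q → p ∣ q + 1 →
    ∀ A : ValuationSubring A2.Qb, A.LiesOverPrime q → SlopeJAt M q p A

/-- **W-DESC (leaf), pointwise**: the level wall over the inertia field and the slope leaf give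
NEW-OLD (replay of `H36.qNewInertiaAt_of_kummerAt` + `H756.kummerQNewInertiaAt_of_fixedAtC`
with the new conclusion). -/
def DescWStatement : Prop :=
  ∀ (M q p : ℕ) [NeZero M] [NeZero q] [NeZero (M * q)], q.Prime → ¬ q ∣ M → p.Prime → p ≠ 2 →
    p ≠ q →
    ∀ A : ValuationSubring A2.Qb, A.LiesOverPrime q →
      LevelWallAt A (inertiaFldC A) M q p → (p ∣ q + 1 → SlopeJAt M q p A) → NewOldAt M q p A

/-- **NEW-OLD (interface statement)** at neat levels. -/
def NewOldStatement : Prop :=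
  ∀ (M q p : ℕ) [NeZero M] [NeZero q] [NeZero (M * q)], q.Prime → ¬ q ∣ M → NeatFor M q →
    q ≠ 2 → p.Prime → p ≠ 2 → p ≠ q →
    ∀ A : ValuationSubring A2.Qb, A.LiesOverPrime q → NewOldAt M q p A

/-- `N` is neat for the odd prime `q` (`N`-form of `Eng.NeatFor`, `q ∥ N`). -/
def NeatN (N q : ℕ) : Prop :=
  (∃ r : ℕ, r.Prime ∧ r % 12 = 11 ∧ r ≠ q ∧ r ∣ N) ∧ 4 ∣ N

/-- **CORE-SQ at neat levels** (`H885.CoreSqStatement` with `q` odd and `N` neat; conclusion
`OccursIn`). -/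
def CoreSqNeatStatement : Prop :=
  ∀ (N q p : ℕ) [NeZero N] [NeZero q], q.Prime → q ≠ 2 → N.factorization q = 1 → NeatN N q →
    p.Prime → p ≠ 2 → p ≠ q →
    ∀ P : ValuationSubring (AlgebraicClosure ℚ), P.LiesOverPrime q →
    ∀ (S : Finset ℕ) (a : ℕ → ℤ), NonEisAway p a →
    ∀ x : JZero (N * q), x ≠ 0 → p • x = 0 → EigenAt (N * q) S a x →
      (∀ τ ∈ P.inertiaSubgroupIn ℚ, τ • x = x) →
      ∃ S' : Finset ℕ, S ⊆ S' ∧ OccursIn N p S' a

/-- **LO-SQ at neat levels** (W-form): `H934.LoSqStatement` for `q` odd and `M / q` neat. -/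
def LoSqNeatStatement : Prop :=
  ∀ (p : ℕ) [Fact p.Prime] (_hp : p = 3 ∨ p = 5)
    (W : WeierstrassCurve ℤ) (_hΔ : W.Δ ≠ 0) (_hW : W.IsSemistableModel)
    (_hirr : W.ModRepIsIrreducible p)
    (M q : ℕ) (_hM : M ≠ 0) (_hq : q.Prime) (_hqp : q ≠ p) (_hq2 : q ≠ 2)
    (_hq2M : q ^ 2 ∣ M) (_hq3M : ¬ q ^ 3 ∣ M) (_hneat : NeatN (M / q) q)
    (_hres : W.IsResiduallyModularOfLevel p M),
    W.IsResiduallyModularOfLevel p (M / q)

end Fermat.Agent.S59.LoSqC

end
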