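import Fermat.Agent.S59.LoSqC.Spec
import Fermat.Agent.S36.Eng.Skel

/-!
# S59 moonshot, cell (C) = LO-SQ: skeleton (cell architect helper885)

Sorry-free glue between the frozen interfaces of `LoSqC/Spec.lean`; the leaves are hypotheses.

* `levelWall_of_leaves : NewUnitsStatement → LeafCtx → LeafRealize → LevelWallStatement`;
* `newOld_of_leaves    : (UNR) → DescWStatement → LevelWallStatement → SlopeJStatement →
                          NewOldStatement`;
* `loSqNeat_of_coreSqNeat` : the W-form from CORE-SQ at neat levels and the inputs of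
  `H885.loSq_of_core` (all theorems on main or in `S59/H885/LoSqFix.lean`).
-/

set_option autoImplicit false
set_option linter.style.haveILetI false
set_option linter.unusedSectionVars false
set_option synthInstance.maxHeartbeats 400000
set_option maxHeartbeats 1600000

noncomputable section

namespace Fermat.Agent.S59.LoSqC

open ModularCurve AlgebraicCurve
open Fermat.Agent.S36 Fermat.Agent.S36.Eng
open Fermat.Agent.Ribet Fermat.Agent.Ribet.Spec Fermat.Agent.Ribet.H944.Wall

/-! ## E-form -/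

section Abs

variable {E F F' : Type*} [Field E] [Field F] [Algebra E F] [Field F'] [Algebra E F']

/-- `m ∣ div f` is stable under division by a nonzero constant times an `m`-th power. -/
theorem divisibleDiv_mul_inv_const_pow {m : ℕ} {f : F} (hf : A2.DivisibleDiv E m f) {c : E}
    (hc : c ≠ 0) {G : F} (hG : G ≠ 0) :
    A2.DivisibleDiv E m (f * (algebraMap E F c * G ^ m)⁻¹) := by
  intro V hV hE
  obtain ⟨h, u, hh, hu, hu', e⟩ := hf V hV hE
  have hcF : algebraMap E F c ≠ 0 := (_root_.map_ne_zero _).mpr hc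
  refine ⟨h * G⁻¹, u * algebraMap E F c⁻¹, mul_ne_zero hh (inv_ne_zero hG),
    V.mul_mem _ _ hu (hE _), ?_, ?_⟩
  · rw [mul_inv, ← map_inv₀, inv_inv]
    exact V.mul_mem _ _ hu' (hE _)
  · rw [e, mul_pow, inv_pow, map_inv₀]
    field_simp

/-- The glue of the level wall, in a fixed context. -/
theorem fromBelow_of_unitsForm {m : ℕ} {α β : F' →ₐ[E] F} {V₁ V₂ V₃ : ValuationSubring F}
    (hR : RealizeAt E m α β V₁ V₂ V₃) {f : F} (hf : f ≠ 0) (hdiv : A2.DivisibleDiv E m f)
    (hU : UnitsForm E m V₁ V₂ V₃ f) : FromBelow E m α β f := by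
  obtain ⟨c, G, hc, hG, h1, h2, h3⟩ := hU
  have hcF : algebraMap E F c ≠ 0 := (_root_.map_ne_zero _).mpr hc
  have hcG : algebraMap E F c * G ^ m ≠ 0 := mul_ne_zero hcF (pow_ne_zero _ hG)
  obtain ⟨c', g, g', h, hg, hg', hh, hdg, hdg', e⟩ :=
    hR _ (mul_ne_zero hf (inv_ne_zero hcG)) (divisibleDiv_mul_inv_const_pow hdiv hc hG) h1 h2 h3
  refine ⟨c * c', g, g', h * G, hg, hg', mul_ne_zero hh hG, hdg, hdg', ?_⟩
  have e' : f = f * (algebraMap E F c * G ^ m)⁻¹ * (algebraMap E F c * G ^ m) := by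
    field_simp
  rw [e', e, map_mul, mul_pow]
  ring

end Abs

/-- **Skeleton, E-form.**  NEW-UNITS + CTX + REALIZE ⟹ the level wall. -/
theorem levelWall_of_leaves (hNU : NewUnitsStatement) (hCtx : LeafCtx) (hRe : LeafRealize) :
    LevelWallStatement := by
  intro P E M q p _ _ _ hq hqM hP hE hneat hq2 hp hp2 hpq w hw V₁' V₂' V₁ V₂ V₃ W' W hO
    f hf hdiv hα hβ hslope
  haveI : IsDiscreteValuationRing ↥(A2.RE P E) := hE.1.dvr
  haveI : HenselianLocalRing ↥(A2.RE P E) := hE.1.henselian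
  haveI : IsAlgClosed (IsLocalRing.ResidueField ↥(A2.RE P E)) := hE.1.algClosed
  have hS : Mod3.Std P E M q w :=
    { q_prime := hq, q_not_dvd := hqM, lies_over := hP, unram := hE, neat := hneat, unif := hw }
  have hctx := hCtx P E M q w hS V₁' V₂' V₁ V₂ V₃ W' W hO
  have hqp : ¬ q ∣ p := fun hd => hpq ((Nat.prime_dvd_prime_iff_eq hq hp).1 hd).symm
  have hU : UnitsForm E p V₁ V₂ V₃ f :=
    hNU (R := ↥(A2.RE P E)) (E := E) (F := ↥(A2.Mod.FE E (M * q * q)))
      (F' := ↥(A2.Mod.FE E (M * q))) w hw q hq (natCast_mem_maximalIdeal_RE E hP)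
      (A2.Mod.αE E (M * q) q) (A2.Mod.βE E (M * q) q) (Mod3.x3E E M q) (A2.Mod.xE E M q)
      V₁ V₂ V₃ V₁' V₂' hctx p hp.pos hqp f hf hα hβ
      (fun hnc => hslope (by
        by_contra hnd
        exact hnc ((Nat.Prime.coprime_iff_not_dvd hp).2 hnd)))
  exact fromBelow_of_unitsForm (hRe P E M q w hS V₁' V₂' V₁ V₂ V₃ W' W hO hq2 p hp hp2 hpq)
    hf hdiv hU

/-! ## J-form -/

/-- **Skeleton, J-form.**  (UNR) + W-DESC + level wall + W-SLOPE ⟹ NEW-OLD at neat levels. -/
theorem newOld_of_leaves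
    (hUNR : ∀ q : ℕ, q.Prime → ∀ P : ValuationSubring A2.Qb, P.LiesOverPrime q →
      Unramified P (inertiaFldC P) q)
    (hDesc : DescWStatement) (hLW : LevelWallStatement) (hSl : SlopeJStatement) :
    NewOldStatement := by
  intro M q p _ _ _ hq hqM hneat hq2 hp hp2 hpq A hA
  exact hDesc M q p hq hqM hp hp2 hpq A hA
    (hLW A (inertiaFldC A) M q p hq hqM hA (hUNR q hq A hA) hneat hq2 hp hp2 hpq)
    (fun hd => hSl M q p hq hqM hneat hq2 hp hp2 hpq hd A hA)

/-! ## W-form -/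

/-- **LO-SQ at neat levels from CORE-SQ at neat levels** (replay of `H885.loSq_of_core`). -/
theorem loSqNeat_of_coreSqNeat (hE : EmbedWStatement) (hPl : PlacesStatement)
    (hFix : H885.FixWStatement) (hNE : H885.NonEisWStatement)
    (hR3 : EigenformOfOccursAwayStatement) (hR3' : AlmostAllToWitnessWStatement)
    (hCore : CoreSqNeatStatement) : LoSqNeatStatement := by
  intro p _ hp35 W hΔ hW hirr M q hM hq hqp hq2 hq2M hq3M hneat hres
  have hp : p.Prime := Fact.out
  have hp2 : p ≠ 2 := by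
    rcases hp35 with h | h <;> omega
  have hqM : q ∣ M := dvd_trans (dvd_pow_self q two_ne_zero) hq2M
  have hfac : (M / q).factorization q = 1 :=
    H885.factorization_div_eq_one885 hM hq hq2M hq3M
  have hMN : M = M / q * q := (Nat.div_mul_cancel hqM).symm
  have hN0 : M / q ≠ 0 := Fermat.Agent.S59.H934.div_ne_zero_of_dvd hM hqM
  haveI : NeZero M := ⟨hM⟩
  haveI : NeZero (M / q) := ⟨hN0⟩
  haveI : NeZero q := ⟨hq.ne_zero⟩
  obtain ⟨f, 𝔪, hwit⟩ := hres
  obtain ⟨S, ι, hinj, hgal, hT⟩ := hE W p M hΔ hp hp2 hirr f 𝔪 hwit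
  obtain ⟨A, hA, -⟩ := hPl q hq
  obtain ⟨v, hv0, hvfix⟩ := hFix W p q hΔ hW hp hq hqp A hA
  obtain ⟨e, heG, heT⟩ := H885.exists_levelCast885 M (M / q * q) hMN
  have hpv : p • ι v = 0 := by
    rw [← map_nsmul]
    have h0 : p • v = 0 := by
      apply Subtype.ext
      have hv := v.2
      rw [Submodule.mem_torsionBy_iff, natCast_zsmul] at hv
      simpa using hv
    rw [h0, _root_.map_zero]
  obtain ⟨S', hSS', hocc⟩ :=
    hCore (M / q) q p hq hq2 hfac hneat hp hp2 (Ne.symm hqp) A hA S _ (hNE W p hΔ hp hirr)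
      (e (ι v))
      (by
        intro h
        have h1 : ι v = 0 := e.injective (by rw [h, _root_.map_zero])
        exact hv0 (hinj (by rw [h1, _root_.map_zero])))
      (by rw [← map_nsmul, hpv, _root_.map_zero])
      (by
        intro ℓ hℓ
        rw [← heT, hT ℓ hℓ v, map_zsmul])
      (by
        intro τ hτ
        rw [← heG, ← hgal, hvfix τ hτ])
  have hlow : Lowered (M / q) p S (fun ℓ => W.apOfModel ℓ) := ⟨S', hSS', Or.inl hocc⟩
  obtain ⟨S'', g, 𝔪', hg, hmax, hpm, hc⟩ := eigenAway_of_lowered hR3 hp hlow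
  exact ⟨g, 𝔪', hR3' W p (M / q) hΔ hp hp2 (Nat.pos_of_ne_zero hN0) hirr g 𝔪' _ hg hmax hpm hc⟩

end Fermat.Agent.S59.LoSqC

end
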